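/-
T4E-P2 CUSP (lead), part 7 (Fix level): the cusp embedding and the embedding record of the component `(a, b)`,
`1 ≤ b ≤ a`, at the inertia levels `L = tbFix 𝔓 ⊤ ⊆ L' = tbFix 𝔓 (t4cyH 𝔓 ζ)`, `ζ` a primitive `p^b`-th root of
unity, attached to helper8's cyclotomic level `t4eCycFix` and packaged in helper9's record `T4eEmb`
(`t4eEmbCusp`): **`t4eEmbCuspFix`**.
-/
import Mathlib
import Fermat.Agent.Lib.T4E.Cusp.Lev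
import Fermat.Agent.Lib.T4E.Cyc.Data
import Fermat.Agent.Lib.T4E.Tower.Flip

set_option autoImplicit false
set_option linter.unusedSectionVars false
set_option linter.style.haveILetI false
set_option linter.unusedVariables false
set_option synthInstance.maxHeartbeats 400000

namespace Fermat.Agent.T4

open Fermat.Agent.S24Lib Fermat.Agent.T1 Fermat.Agent.T1.KMod Fermat.Agent.T2
open ModularCurve HahnSeries Fermat.Agent.TW Fermat.Agent.S05Lib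

local notation "Qb" => AlgebraicClosure ℚ

section Fix

variable (𝔓 : FFPlace) (N'' : ℕ) [NeZero N''] (hN'' : ¬ 𝔓.p ∣ N'') (a b : ℕ) (hba : b ≤ a)
  (hb : 1 ≤ b) {ζ : Qb} (hζ : IsPrimitiveRoot ζ (𝔓.p ^ b))

/-- the cusp embedding `ι_(a,b)` attached to the cyclotomic level `t4eCycFix` -/
noncomputable def t4eCuspCycFix :
    letI := t4cyAlgebra 𝔓 (le_top : t4cyH 𝔓 ζ ≤ ⊤)
    T4eCusp ↥(tbFix 𝔓 (⊤ : Subgroup 𝔓.I)) ↥(tbFix 𝔓 (t4cyH 𝔓 ζ)) N'' 𝔓.p a b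
      (t4eCycFix 𝔓 (Nat.one_le_iff_ne_zero.mp hb) hζ).ζ :=
  letI := t4cyAlgebra 𝔓 (le_top : t4cyH 𝔓 ζ ≤ ⊤)
  t4eCuspFix 𝔓 (le_top : t4cyH 𝔓 ζ ≤ ⊤) N'' hN'' a b hba hb
    (t4eCycFix 𝔓 (Nat.one_le_iff_ne_zero.mp hb) hζ).ζ
    (t4eCycFix 𝔓 (Nat.one_le_iff_ne_zero.mp hb) hζ).ζ_pow
    ((t4eCycFix 𝔓 (Nat.one_le_iff_ne_zero.mp hb) hζ).ζ_prim (b - 1) (by omega))

/-- **the embedding record of the component `(a, b)`, `1 ≤ b ≤ a`, at the inertia levels** -/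
noncomputable def t4eEmbCuspFix :
    letI := t4cyAlgebra 𝔓 (le_top : t4cyH 𝔓 ζ ≤ ⊤)
    T4eEmb (tbFixO 𝔓 (⊤ : Subgroup 𝔓.I)) (tbFixRes 𝔓 (⊤ : Subgroup 𝔓.I)) N'' 𝔓.p (a + b) a
      (tbFixO 𝔓 (t4cyH 𝔓 ζ)) (tbFixRes 𝔓 (t4cyH 𝔓 ζ)) :=
  letI := t4cyAlgebra 𝔓 (le_top : t4cyH 𝔓 ζ ≤ ⊤)
  t4eEmbCusp (t4eCycFix 𝔓 (Nat.one_le_iff_ne_zero.mp hb) hζ) hba
    (tbFixRes_surjective 𝔓 (⊤ : Subgroup 𝔓.I)) (t4eCuspCycFix 𝔓 N'' hN'' a b hba hb hζ)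

end Fix

end Fermat.Agent.T4
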