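/-
T4E-P2 CUSP (lead), part 4: `ι_(a,b)` on the images of the degeneracy maps `a_n = t4eDeg 𝕜 N'' q (a + b) n`
(`barField 𝕜 N'' → barField 𝕜 (t4eLev N'' q (a + b))`, `f(𝔮) ↦ f(𝔮^{q^n})`):
* `ι (a_n f) = f(𝔮^{q^n})` for `n ≤ a`;
* `ι (a_{a+j} f) = (σ_{z_j} f)(𝔮^{q^(a-j)})` for `j ≤ b`, `z_j = z^{q^(b-j)}`;
and uniqueness of a ring homomorphism with prescribed values on the constants and on all `a_n f`.
-/
import Mathlib
import Fermat.Agent.Lib.T4E.Cusp.Hom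

set_option autoImplicit false
set_option linter.unusedSectionVars false
set_option linter.style.haveILetI false
set_option linter.unusedVariables false

namespace Fermat.Agent.T4

open Fermat.Agent.S24Lib Fermat.Agent.T1 Fermat.Agent.T1.KMod Fermat.Agent.T2
open UpperHalfPlane Matrix MatrixGroups ModularCurve HahnSeries

attribute [local instance] charZero_k

section Gens

variable (𝕜 : Type) [Field 𝕜] [Algebra ℚ 𝕜] (N'' q : ℕ) [NeZero N''] [NeZero q]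

theorem t4ecu_jd_congr (N : ℕ) [NeZero N] {D D' : ℕ} (hD : D ∣ N) (h : D = D') :
    t2wJd 𝕜 N D hD = t2wJd 𝕜 N D' (h ▸ hD) := by
  subst h
  rfl

theorem t4ecu_dvd_deg (i : ℕ) {d n : ℕ} (hd : d ∣ N'') (hn : n ≤ i) :
    d * q ^ n ∣ t4eLev N'' q i := by
  rw [t4eLev_eq]
  exact Nat.mul_dvd_mul hd (pow_dvd_pow q hn)

/-- `a_n (j(𝔮^d)) = j(𝔮^{d q^n})` -/
theorem t4ecu_deg_jd (i n : ℕ) (hn : n ≤ i) (d : ℕ) (hd : d ∣ N'') :
    t4eDeg 𝕜 N'' q i n (t2wJd 𝕜 N'' d hd)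
      = t2wJd 𝕜 (t4eLev N'' q i) (d * q ^ n) (t4ecu_dvd_deg N'' q i hd hn) := by
  haveI : NeZero d := t2w_neZero_of_dvd N'' hd
  haveI : NeZero (d * q ^ n) := ⟨Nat.mul_ne_zero (NeZero.ne d) (NeZero.ne _)⟩
  apply Subtype.ext
  rw [coe_t4eDeg 𝕜 N'' q i n hn, coe_t2wJd _ N'' d hd, coe_t2wJd _ _ (d * q ^ n), qExpand_qExpand]
  exact qExpand_congr (mul_comm _ _) _

include 𝕜 in
/-- a ring homomorphism from the function field of level `N'' q^i` to a division ring is determined by its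
values on the constants and on the images of the degeneracy maps `a_n`, `n ≤ i` -/
theorem t4ecu_ext (hq : q.Prime) (i : ℕ) {R : Type*} [DivisionRing R]
    (φ ψ : barField 𝕜 (t4eLev N'' q i) →+* R)
    (hc : ∀ c : 𝕜, φ (algebraMap 𝕜 _ c) = ψ (algebraMap 𝕜 _ c))
    (ha : ∀ n ≤ i, ∀ f : barField 𝕜 N'',
      φ (t4eDeg 𝕜 N'' q i n f) = ψ (t4eDeg 𝕜 N'' q i n f)) : φ = ψ := by
  apply t2w_ringHom_ext 𝕜 (t4eLev N'' q i) φ ψ hc
  intro D hD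
  have hD' : D ∣ N'' * q ^ i := by rwa [t4eLev_eq] at hD
  obtain ⟨d, n, hd, hn, rfl⟩ := t4ecu_dvd_cases N'' q i hq hD'
  have h1 := ha n hn (t2wJd 𝕜 N'' d hd)
  rwa [t4ecu_deg_jd 𝕜 N'' q i n hn d hd] at h1

end Gens

section Degen

variable (𝕜 : Type) [Field 𝕜] [IsAlgClosed 𝕜] [Algebra 𝕜 ℂ] [Algebra ℚ 𝕜]
variable (N'' q : ℕ) [NeZero N''] [NeZero q] (hq : q.Prime) (a b : ℕ) (hba : b ≤ a)
variable (b₀ C u : ℤ) (h : (N'' : ℤ) * b₀ * C + ((q ^ b : ℕ) : ℤ) * u = 1)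
variable (z : 𝕜ˣ)
  (hz : algebraMap 𝕜 ℂ (z : 𝕜) = Complex.exp (2 * Real.pi * Complex.I * b₀ / ((q ^ b : ℕ) : ℤ)))

/-- `ι (a_n f) = f(𝔮^{q^n})` for `n ≤ a` -/
theorem t4ecuHom_low (n : ℕ) (hn : n ≤ a) (f : barField 𝕜 N'') :
    t4ecuHom 𝕜 N'' q hq a b hba b₀ C u h z hz (t4eDeg 𝕜 N'' q (a + b) n f)
      = qExpand 𝕜 (q ^ n) (f : LaurentSeries 𝕜) := by
  have key : ((t4ecuHom 𝕜 N'' q hq a b hba b₀ C u h z hz :
          barField 𝕜 (t4eLev N'' q (a + b)) →+* LaurentSeries 𝕜).comp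
        ((t4eDeg 𝕜 N'' q (a + b) n : barField 𝕜 N'' →ₐ[𝕜] barField 𝕜 (t4eLev N'' q (a + b))) :
          barField 𝕜 N'' →+* barField 𝕜 (t4eLev N'' q (a + b))))
      = (qExpand 𝕜 (q ^ n)).comp (algebraMap (barField 𝕜 N'') (LaurentSeries 𝕜)) := by
    apply t2w_ringHom_ext
    · intro c
      show t4ecuHom 𝕜 N'' q hq a b hba b₀ C u h z hz
          (t4eDeg 𝕜 N'' q (a + b) n (algebraMap 𝕜 _ c))
        = qExpand 𝕜 (q ^ n) (algebraMap (barField 𝕜 N'') (LaurentSeries 𝕜) (algebraMap 𝕜 _ c))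
      rw [AlgHom.commutes, AlgHom.commutes,
        ← IsScalarTower.algebraMap_apply 𝕜 (barField 𝕜 N'') (LaurentSeries 𝕜),
        algebraMap_laurentSeries_eq_single, qExpand_single, mul_zero]
    · intro d hd
      haveI : NeZero d := t2w_neZero_of_dvd N'' hd
      haveI : NeZero (d * q ^ n) := ⟨Nat.mul_ne_zero (NeZero.ne d) (NeZero.ne _)⟩
      show t4ecuHom 𝕜 N'' q hq a b hba b₀ C u h z hz
          (t4eDeg 𝕜 N'' q (a + b) n (t2wJd 𝕜 N'' d hd))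
        = qExpand 𝕜 (q ^ n) ((t2wJd 𝕜 N'' d hd : barField 𝕜 N'') : LaurentSeries 𝕜)
      rw [t4ecu_deg_jd 𝕜 N'' q (a + b) n (hn.trans (Nat.le_add_right a b)) d hd,
        t4ecuHom_jd_low 𝕜 N'' q hq a b hba b₀ C u h z hz (d * q ^ n)
          (Nat.mul_dvd_mul hd (pow_dvd_pow q hn)),
        coe_t2wJd _ N'' d hd, qExpand_qExpand]
      exact qExpand_congr (mul_comm _ _) _
  exact RingHom.congr_fun key f

/-- `ι (a_{a+j} f) = (σ_{z_j} f)(𝔮^{q^(a-j)})` for `j ≤ b`, `z_j = z^{q^(b-j)}` -/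
theorem t4ecuHom_high (j : ℕ) (hjb : j ≤ b) (f : barField 𝕜 N'') :
    t4ecuHom 𝕜 N'' q hq a b hba b₀ C u h z hz (t4eDeg 𝕜 N'' q (a + b) (a + j) f)
      = qExpand 𝕜 (q ^ (a - j)) (t4vSig (z ^ (q ^ (b - j))) (f : LaurentSeries 𝕜)) := by
  have key : ((t4ecuHom 𝕜 N'' q hq a b hba b₀ C u h z hz :
          barField 𝕜 (t4eLev N'' q (a + b)) →+* LaurentSeries 𝕜).comp
        ((t4eDeg 𝕜 N'' q (a + b) (a + j) :
            barField 𝕜 N'' →ₐ[𝕜] barField 𝕜 (t4eLev N'' q (a + b))) :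
          barField 𝕜 N'' →+* barField 𝕜 (t4eLev N'' q (a + b))))
      = ((qExpand 𝕜 (q ^ (a - j))).comp (t4vSig (z ^ (q ^ (b - j))))).comp
          (algebraMap (barField 𝕜 N'') (LaurentSeries 𝕜)) := by
    apply t2w_ringHom_ext
    · intro c
      show t4ecuHom 𝕜 N'' q hq a b hba b₀ C u h z hz
          (t4eDeg 𝕜 N'' q (a + b) (a + j) (algebraMap 𝕜 _ c))
        = qExpand 𝕜 (q ^ (a - j)) (t4vSig (z ^ (q ^ (b - j)))
            (algebraMap (barField 𝕜 N'') (LaurentSeries 𝕜) (algebraMap 𝕜 _ c)))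
      rw [AlgHom.commutes, AlgHom.commutes,
        ← IsScalarTower.algebraMap_apply 𝕜 (barField 𝕜 N'') (LaurentSeries 𝕜),
        algebraMap_laurentSeries_eq_single, ← HahnSeries.C_apply, t4vSig_C, qExpand_C]
    · intro d hd
      haveI : NeZero d := t2w_neZero_of_dvd N'' hd
      show t4ecuHom 𝕜 N'' q hq a b hba b₀ C u h z hz
          (t4eDeg 𝕜 N'' q (a + b) (a + j) (t2wJd 𝕜 N'' d hd))
        = qExpand 𝕜 (q ^ (a - j)) (t4vSig (z ^ (q ^ (b - j)))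
            ((t2wJd 𝕜 N'' d hd : barField 𝕜 N'') : LaurentSeries 𝕜))
      have heq : d * q ^ (a + j) = d * q ^ a * q ^ j := by rw [_root_.pow_add, mul_assoc]
      rw [t4ecu_deg_jd 𝕜 N'' q (a + b) (a + j) (Nat.add_le_add_left hjb a) d hd,
        t4ecu_jd_congr 𝕜 (t4eLev N'' q (a + b)) _ heq,
        t4ecuHom_jd_high 𝕜 N'' q hq a b hba b₀ C u h z hz j hjb d hd, coe_t2wJd _ N'' d hd]
  exact RingHom.congr_fun key f

end Degen

end Fermat.Agent.T4
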