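/-
T4E-P2 CUSP (lead), part 1: the matrix `γ₀ = [[1, 0], [N'' Q₁ C, 1]]` (`= t4mGam N'' Q₁ C`, in the application
`Q₁ = q^a`) and its effect on the generators `j(Dτ)`:
* `j(D · γ₀ τ) = j(D τ)` for `D ∣ N'' Q₁` (`t4m_jGen_low`, already generic);
* `j(d Q₁ Q₂ · γ₀ τ) = j((d Q₁ τ + d b) / Q₂)` for `d ∣ N''`, `N'' b C + Q₂ u = 1` (in the application
  `Q₂ = q^j`, `1 ≤ j ≤ b`),
together with the `q_N`-expansion of the latter in closed form: `qExpand M (σ_w j)`, `M Q₂ = N d Q₁`,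
`w = exp(2π i d b / Q₂)`.  This is the `q`-expansion at the cusps of the component `(a, b)` of `X₀(N'' q^{a+b})`.
-/
import Mathlib
import Fermat.Agent.Lib.T4.Inst.MidEx1

set_option autoImplicit false
set_option linter.unusedSectionVars false
set_option linter.style.haveILetI false
set_option linter.unusedVariables false

namespace Fermat.Agent.T4

open Fermat.Agent.S24Lib Fermat.Agent.T1 Fermat.Agent.T1.KMod Fermat.Agent.T2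
open UpperHalfPlane Matrix MatrixGroups ModularCurve HahnSeries
open Fermat.Agent.S22Lib (intGL)
open Fermat.Agent.ES (IsQLaurentable qLaurent)

theorem t4ecu_mat_high (d m Q₁ Q₂ : ℕ) (b C u : ℤ)
    (h : ((d * m : ℕ) : ℤ) * b * C + Q₂ * u = 1) :
    diagMat (d * Q₁ * Q₂) * !![1, 0; ((d * m : ℕ) : ℤ) * Q₁ * C, 1]
      = !![(Q₂ : ℤ), -((d : ℤ) * b); (m : ℤ) * C, u] * !![(d : ℤ) * Q₁, (d : ℤ) * b; 0, Q₂] := by
  simp only [diagMat]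
  push_cast at h
  ext i j
  fin_cases i <;> fin_cases j
  · simp [Matrix.mul_apply, Fin.sum_univ_two]; ring
  · simp [Matrix.mul_apply, Fin.sum_univ_two]; ring
  · simp [Matrix.mul_apply, Fin.sum_univ_two]; ring
  · simp [Matrix.mul_apply, Fin.sum_univ_two]; linear_combination -h

theorem t4ecu_upper_det_pos (d Q₁ Q₂ : ℕ) (hd : 0 < d) (h₁ : 0 < Q₁) (h₂ : 0 < Q₂) (b : ℤ) :
    0 < (!![(d : ℤ) * Q₁, (d : ℤ) * b; 0, Q₂] : Matrix (Fin 2) (Fin 2) ℤ).det := by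
  rw [Matrix.det_fin_two_of, mul_zero, sub_zero]
  have h1 : (0 : ℤ) < d := by exact_mod_cast hd
  have h2 : (0 : ℤ) < Q₁ := by exact_mod_cast h₁
  have h3 : (0 : ℤ) < Q₂ := by exact_mod_cast h₂
  positivity

/-- `j(d Q₁ Q₂ · γ₀ τ) = j((d Q₁ τ + d b) / Q₂)` for `d ∣ N''` -/
theorem t4ecu_jGen_high (N'' Q₁ Q₂ : ℕ) (h₁ : 0 < Q₁) (h₂ : 0 < Q₂) (b C u : ℤ)
    (h : (N'' : ℤ) * b * C + Q₂ * u = 1) (d : ℕ+) (hd : (d : ℕ) ∣ N'') :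
    S24Lib.jGen (d * ⟨Q₁, h₁⟩ * ⟨Q₂, h₂⟩) (t4mGam N'' Q₁ C)
      = jMat !![((d : ℕ) : ℤ) * Q₁, ((d : ℕ) : ℤ) * b; 0, Q₂]
          (t4ecu_upper_det_pos d Q₁ Q₂ d.pos h₁ h₂ b) := by
  obtain ⟨m, hm⟩ := hd
  have h' : (((d : ℕ) * m : ℕ) : ℤ) * b * C + Q₂ * u = 1 := by
    rw [← hm]; exact h
  let γ' : SL(2, ℤ) := ⟨!![(Q₂ : ℤ), -(((d : ℕ) : ℤ) * b); (m : ℤ) * C, u], by
    rw [Matrix.det_fin_two_of]
    push_cast at h'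
    linear_combination h'⟩
  have hmat : diagMat ((d * ⟨Q₁, h₁⟩ * ⟨Q₂, h₂⟩ : ℕ+) : ℕ)
        * ((t4mGam N'' Q₁ C : SL(2, ℤ)) : Matrix (Fin 2) (Fin 2) ℤ)
      = (γ' : Matrix (Fin 2) (Fin 2) ℤ) * !![((d : ℕ) : ℤ) * Q₁, ((d : ℕ) : ℤ) * b; 0, Q₂] := by
    have h1 : ((t4mGam N'' Q₁ C : SL(2, ℤ)) : Matrix (Fin 2) (Fin 2) ℤ)
        = !![1, 0; (((d : ℕ) * m : ℕ) : ℤ) * Q₁ * C, 1] := by
      rw [coe_t4mGam, hm]
    rw [h1]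
    exact t4ecu_mat_high d m Q₁ Q₂ b C u h'
  rw [S24Lib.jGen, jMat_congr hmat _
    (det_SL_mul_pos γ' (t4ecu_upper_det_pos d Q₁ Q₂ d.pos h₁ h₂ b)), jMat_SL_mul]

/-- the `q_N`-expansion of `τ ↦ j((d Q₁ τ + d b) / Q₂)` in closed form: `(σ_w j)(𝔮_N^M)` with
`M Q₂ = N d Q₁` and `w = exp(2π i d b / Q₂)` -/
theorem t4ecu_qLaurent_high (N : ℕ) [NeZero N] (d Q₁ Q₂ : ℕ) (hd : 0 < d) (h₁ : 0 < Q₁)
    (h₂ : 0 < Q₂) (b : ℤ) (M : ℕ) [NeZero M] (hM : M * Q₂ = N * (d * Q₁)) (w : ℂˣ)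
    (hw : (w : ℂ) = Complex.exp (2 * Real.pi * Complex.I * ((d : ℤ) * b : ℤ) / (Q₂ : ℤ))) :
    qLaurent N (jMat !![(d : ℤ) * Q₁, (d : ℤ) * b; 0, Q₂] (t4ecu_upper_det_pos d Q₁ Q₂ hd h₁ h₂ b))
      = qExpand ℂ M (t4vSig w (jqModC ℂ)) := by
  have ha : (0 : ℤ) < (d : ℤ) * Q₁ := by
    have h1 : (0 : ℤ) < d := by exact_mod_cast hd
    have h2 : (0 : ℤ) < Q₁ := by exact_mod_cast h₁
    positivity
  have hq' : (0 : ℤ) < (Q₂ : ℤ) := by exact_mod_cast h₂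
  have he : ((M : ℕ) : ℤ) * (Q₂ : ℤ) = N * ((d : ℤ) * Q₁) := by exact_mod_cast hM
  ext m
  have key := (qLaurent_jFun_comp_upper ((d : ℤ) * Q₁) ((d : ℤ) * b) Q₂ ha hq'
    (t4ecu_upper_det_pos d Q₁ Q₂ hd h₁ h₂ b) N M he).2 m
  refine Eq.trans key ?_
  by_cases hm : ((M : ℕ) : ℤ) ∣ m
  · obtain ⟨l, rfl⟩ := hm
    have hM0 : ((M : ℕ) : ℤ) ≠ 0 := by exact_mod_cast NeZero.ne M
    rw [if_pos (dvd_mul_right _ _), Int.mul_ediv_cancel_left l hM0, qExpand_coeff_mul, t4vSig_coeff,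
      Units.val_zpow_eq_zpow_val, hw]
  · rw [if_neg hm, qExpand_coeff_of_not_dvd M _ hm]

end Fermat.Agent.T4
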