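/-
T4E-P2 CUSP (lead), part 2: the values of `t4mC 𝕜 N γ₀` (precomposition with `γ₀ = t4mGam N'' Q₁ C` followed by
the `q_N`-expansion at `∞`; `t4mC` is generic in `N` and `γ`) on the generators `j(𝔮^D)` of the function field of
`X₀(N)` over an algebraically closed `𝕜 ⊆ ℂ`:
* `D ∣ N'' Q₁`: `j(𝔮^D) ↦ j(𝔮^D)`;
* `D = d Q₁ Q₂`, `d ∣ N''`, `R Q₂ = Q₁`: `j(𝔮^D) ↦ (σ_z j(𝔮^d))(𝔮^R)`, `z = exp(2π i b / Q₂)`, `N'' b C + Q₂ u = 1`.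
In the application `Q₁ = q^a`, `Q₂ = q^j`, `R = q^(a-j)`, `1 ≤ j ≤ b ≤ a`, `N = N'' q^(a+b)`.
-/
import Mathlib
import Fermat.Agent.Lib.T4E.Cusp.Mat
import Fermat.Agent.Lib.T4.Inst.MidEx2

set_option autoImplicit false
set_option linter.unusedSectionVars false
set_option linter.style.haveILetI false
set_option linter.unusedVariables false

namespace Fermat.Agent.T4

open Fermat.Agent.S24Lib Fermat.Agent.T1 Fermat.Agent.T1.KMod Fermat.Agent.T2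
open UpperHalfPlane Matrix MatrixGroups ModularCurve HahnSeries
open Fermat.Agent.S22Lib (intGL)
open Fermat.Agent.ES (IsQLaurentable qLaurent)

attribute [local instance] charZero_k

section Gen

variable (𝕜 : Type) [Field 𝕜] [IsAlgClosed 𝕜] [Algebra 𝕜 ℂ] [Algebra ℚ 𝕜]
variable (N'' Q₁ : ℕ) [NeZero N''] [NeZero Q₁] (N : ℕ) [NeZero N] (C : ℤ)

/-- `D ∣ N'' Q₁`: the generator `j(𝔮^D)` is fixed -/
theorem t4ecuC_jd_low (hlow : N'' * Q₁ ∣ N) (D : ℕ) [NeZero D] (hD : D ∣ N'' * Q₁) :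
    t4mC 𝕜 N (t4mGam N'' Q₁ C) (t2wJd 𝕜 N D (hD.trans hlow))
      = barQLHom 𝕜 N (qExpand 𝕜 D (jqModC 𝕜)) := by
  rw [t4mC_jd, t4m_jGen_low N'' Q₁ C (t2wPN N D (hD.trans hlow)) hD,
    t4m_qLaurent_jGen_one, t4m_barQLHom_jd]
  rfl

/-- `d ∣ N''`, `R Q₂ = Q₁`: the generator `j(𝔮^{d Q₁ Q₂})` goes to `(σ_z j(𝔮^d))(𝔮^R)` -/
theorem t4ecuC_jd_high (Q₂ : ℕ) [NeZero Q₂] (b u : ℤ) (h : (N'' : ℤ) * b * C + Q₂ * u = 1)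
    (z : 𝕜ˣ) (hz : algebraMap 𝕜 ℂ (z : 𝕜) = Complex.exp (2 * Real.pi * Complex.I * b / (Q₂ : ℤ)))
    (R : ℕ) [NeZero R] (hR : R * Q₂ = Q₁)
    (d : ℕ) [NeZero d] (hd : d ∣ N'') (hdvd : d * Q₁ * Q₂ ∣ N) :
    t4mC 𝕜 N (t4mGam N'' Q₁ C) (t2wJd 𝕜 N (d * Q₁ * Q₂) hdvd)
      = barQLHom 𝕜 N (qExpand 𝕜 R (t4vSig z (qExpand 𝕜 d (jqModC 𝕜)))) := by
  have h₁ : 0 < Q₁ := Nat.pos_of_ne_zero (NeZero.ne Q₁)
  have h₂ : 0 < Q₂ := Nat.pos_of_ne_zero (NeZero.ne Q₂)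
  have hd0 : 0 < d := Nat.pos_of_ne_zero (NeZero.ne d)
  rw [t4mC_jd]
  have key : S24Lib.jGen (t2wPN N (d * Q₁ * Q₂) hdvd) (t4mGam N'' Q₁ C)
      = jMat !![(d : ℤ) * Q₁, (d : ℤ) * b; 0, Q₂] (t4ecu_upper_det_pos d Q₁ Q₂ hd0 h₁ h₂ b) := by
    have h1 := t4ecu_jGen_high N'' Q₁ Q₂ h₁ h₂ b C u h ⟨d, hd0⟩ hd
    refine Eq.trans ?_ h1
    congr 1
  rw [key]
  -- the root of unity `w = z^d` over `ℂ`
  set w : ℂˣ := (Units.map ((algebraMap 𝕜 ℂ : 𝕜 →+* ℂ) : 𝕜 →* ℂ) z) ^ d with hw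
  have hwval : (w : ℂ)
      = Complex.exp (2 * Real.pi * Complex.I * ((d : ℤ) * b : ℤ) / (Q₂ : ℤ)) := by
    rw [hw, Units.val_pow_eq_pow_val, Units.coe_map]
    show (algebraMap 𝕜 ℂ (z : 𝕜)) ^ d = _
    rw [hz, ← Complex.exp_nat_mul]
    congr 1
    push_cast
    ring
  haveI : NeZero (N * R * d) :=
    ⟨Nat.mul_ne_zero (Nat.mul_ne_zero (NeZero.ne N) (NeZero.ne R)) (NeZero.ne d)⟩
  have hM : N * R * d * Q₂ = N * (d * Q₁) := by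
    rw [← hR]; ring
  rw [t4ecu_qLaurent_high N d Q₁ Q₂ hd0 h₁ h₂ b (N * R * d) hM w hwval,
    barQLHom_apply 𝕜, coeffMap_qExpand, coeffMap_t4vSig, coeffMap_qExpand, coeffMap_jqModC,
    t4vSig_qExpand, qExpand_qExpand, qExpand_qExpand]

end Gen

end Fermat.Agent.T4
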