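/-
T4E-P2 CUSP (lead), part 3: the embedding `ι_(a,b)` ("`q`-expansion at the cusps of the component `(a, b)`",
`b ≤ a`) of the function field of `X₀(N'' q^(a+b))` over an algebraically closed field `𝕜 ⊆ ℂ`, as an algebra
homomorphism `t4ecuHom … : barField 𝕜 (t4eLev N'' q (a + b)) →ₐ[𝕜] LaurentSeries 𝕜`, with its values on the
generators:
* `j(𝔮^D) ↦ j(𝔮^D)` for `D ∣ N'' q^a`;
* `j(𝔮^{d q^a q^j}) ↦ (σ_{z_j} j(𝔮^d))(𝔮^{q^(a-j)})` for `d ∣ N''`, `1 ≤ j ≤ b`, `z_j = z^{q^(b-j)}`,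
  `z = exp(2π i b₀ / q^b)`, `N'' b₀ C + q^b u = 1`.
Construction: `t4mC 𝕜 N γ₀` (`γ₀ = t4mGam N'' (q^a) C`); the values descend from `LaurentSeries ℂ` (in `𝔮^{1/N}`)
to `LaurentSeries 𝕜`.
-/
import Mathlib
import Fermat.Agent.Lib.T4E.Cusp.Gen
import Fermat.Agent.Lib.T4E.Tower.Defs

set_option autoImplicit false
set_option linter.unusedSectionVars false
set_option linter.style.haveILetI false
set_option linter.unusedVariables false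

namespace Fermat.Agent.T4

open Fermat.Agent.S24Lib Fermat.Agent.T1 Fermat.Agent.T1.KMod Fermat.Agent.T2
open UpperHalfPlane Matrix MatrixGroups ModularCurve HahnSeries
open Fermat.Agent.S22Lib (intGL)
open Fermat.Agent.ES (IsQLaurentable qLaurent)

attribute [local instance] charZero_k

/-- the divisors of `N'' q^i` (`q` prime): `D = d q^n` with `d ∣ N''`, `n ≤ i` -/
theorem t4ecu_dvd_cases (N'' q i : ℕ) (hq : q.Prime) {D : ℕ} (hD : D ∣ N'' * q ^ i) :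
    ∃ d n, d ∣ N'' ∧ n ≤ i ∧ D = d * q ^ n := by
  obtain ⟨d, e, hd, he, rfl⟩ := (Nat.dvd_mul).mp hD
  obtain ⟨n, hn, rfl⟩ := (Nat.dvd_prime_pow hq).mp he
  exact ⟨d, n, hd, hn, rfl⟩

theorem t4ecu_dvd_low (N'' q a b : ℕ) : N'' * q ^ a ∣ t4eLev N'' q (a + b) := by
  rw [t4eLev_eq]
  exact Nat.mul_dvd_mul_left _ (pow_dvd_pow q (Nat.le_add_right a b))

theorem t4ecu_dvd_high (N'' q a b : ℕ) {d j : ℕ} (hd : d ∣ N'') (hj : j ≤ b) :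
    d * q ^ a * q ^ j ∣ t4eLev N'' q (a + b) := by
  rw [t4eLev_eq, mul_assoc, ← _root_.pow_add]
  exact Nat.mul_dvd_mul hd (pow_dvd_pow q (Nat.add_le_add_left hj a))

/-- the Bezout relation for `q^j`, `j ≤ b`, from the one for `q^b` -/
theorem t4ecu_bezout (N'' q b j : ℕ) (hj : j ≤ b) (b₀ C u : ℤ)
    (h : (N'' : ℤ) * b₀ * C + ((q ^ b : ℕ) : ℤ) * u = 1) :
    (N'' : ℤ) * b₀ * C + ((q ^ j : ℕ) : ℤ) * (((q ^ (b - j) : ℕ) : ℤ) * u) = 1 := by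
  have h1 : ((q ^ b : ℕ) : ℤ) = ((q ^ j : ℕ) : ℤ) * ((q ^ (b - j) : ℕ) : ℤ) := by
    rw [← Nat.cast_mul, ← _root_.pow_add, Nat.add_sub_cancel' hj]
  rw [← mul_assoc, ← h1]
  exact h

/-- the root of unity `z_j = z^{q^(b-j)}` is `exp(2π i b₀ / q^j)` -/
theorem t4ecu_root (𝕜 : Type) [Field 𝕜] [Algebra 𝕜 ℂ] (q b j : ℕ) [NeZero q] (hj : j ≤ b) (b₀ : ℤ)
    (z : 𝕜ˣ)
    (hz : algebraMap 𝕜 ℂ (z : 𝕜)
      = Complex.exp (2 * Real.pi * Complex.I * b₀ / ((q ^ b : ℕ) : ℤ))) :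
    algebraMap 𝕜 ℂ ((z ^ (q ^ (b - j)) : 𝕜ˣ) : 𝕜)
      = Complex.exp (2 * Real.pi * Complex.I * b₀ / ((q ^ j : ℕ) : ℤ)) := by
  rw [Units.val_pow_eq_pow_val, map_pow, hz, ← Complex.exp_nat_mul]
  congr 1
  have hq0 : (q : ℂ) ≠ 0 := by exact_mod_cast NeZero.ne q
  have h1 : (((q ^ b : ℕ) : ℤ) : ℂ) = (((q ^ j : ℕ) : ℤ) : ℂ) * ((q ^ (b - j) : ℕ) : ℂ) := by
    push_cast
    rw [← _root_.pow_add, Nat.add_sub_cancel' hj]
  rw [h1]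
  have h2 : (((q ^ j : ℕ) : ℤ) : ℂ) ≠ 0 := by push_cast; exact pow_ne_zero _ hq0
  have h3 : ((q ^ (b - j) : ℕ) : ℂ) ≠ 0 := by push_cast; exact pow_ne_zero _ hq0
  field_simp

section Hom

variable (𝕜 : Type) [Field 𝕜] [IsAlgClosed 𝕜] [Algebra 𝕜 ℂ] [Algebra ℚ 𝕜]
variable (N'' q : ℕ) [NeZero N''] [NeZero q] (hq : q.Prime) (a b : ℕ) (hba : b ≤ a)
variable (b₀ C u : ℤ) (h : (N'' : ℤ) * b₀ * C + ((q ^ b : ℕ) : ℤ) * u = 1)
variable (z : 𝕜ˣ)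
  (hz : algebraMap 𝕜 ℂ (z : 𝕜) = Complex.exp (2 * Real.pi * Complex.I * b₀ / ((q ^ b : ℕ) : ℤ)))

/-- `D ∣ N'' q^a`: the generator `j(𝔮^D)` is fixed -/
theorem t4ecuC_low (D : ℕ) [NeZero D] (hD : D ∣ N'' * q ^ a) :
    t4mC 𝕜 (t4eLev N'' q (a + b)) (t4mGam N'' (q ^ a) C)
        (t2wJd 𝕜 (t4eLev N'' q (a + b)) D (hD.trans (t4ecu_dvd_low N'' q a b)))
      = barQLHom 𝕜 (t4eLev N'' q (a + b)) (qExpand 𝕜 D (jqModC 𝕜)) :=
  t4ecuC_jd_low 𝕜 N'' (q ^ a) (t4eLev N'' q (a + b)) C (t4ecu_dvd_low N'' q a b) D hD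

include hba h hz in
/-- `d ∣ N''`, `1 ≤ j ≤ b`: the generator `j(𝔮^{d q^a q^j})` goes to `(σ_{z_j} j(𝔮^d))(𝔮^{q^(a-j)})` -/
theorem t4ecuC_high (j : ℕ) (hjb : j ≤ b) (d : ℕ) [NeZero d] (hd : d ∣ N'') :
    t4mC 𝕜 (t4eLev N'' q (a + b)) (t4mGam N'' (q ^ a) C)
        (t2wJd 𝕜 (t4eLev N'' q (a + b)) (d * q ^ a * q ^ j) (t4ecu_dvd_high N'' q a b hd hjb))
      = barQLHom 𝕜 (t4eLev N'' q (a + b))
          (qExpand 𝕜 (q ^ (a - j)) (t4vSig (z ^ (q ^ (b - j))) (qExpand 𝕜 d (jqModC 𝕜)))) := by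
  have hR : q ^ (a - j) * q ^ j = q ^ a := by
    rw [← _root_.pow_add, Nat.sub_add_cancel (hjb.trans hba)]
  exact t4ecuC_jd_high 𝕜 N'' (q ^ a) (t4eLev N'' q (a + b)) C (q ^ j) b₀
    (((q ^ (b - j) : ℕ) : ℤ) * u) (t4ecu_bezout N'' q b j hjb b₀ C u h) (z ^ (q ^ (b - j)))
    (t4ecu_root 𝕜 q b j hjb b₀ z hz) (q ^ (a - j)) hR d hd (t4ecu_dvd_high N'' q a b hd hjb)

include hq hba h hz in
/-- the values of `t4mC` are `q_N`-expansions of Laurent series over `𝕜` in `𝔮` -/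
theorem t4ecu_exists (x : barField 𝕜 (t4eLev N'' q (a + b))) :
    ∃ s : LaurentSeries 𝕜, barQLHom 𝕜 (t4eLev N'' q (a + b)) s
      = t4mC 𝕜 (t4eLev N'' q (a + b)) (t4mGam N'' (q ^ a) C) x := by
  induction x using t2w_induction with
  | hc c => exact ⟨algebraMap 𝕜 _ c, by rw [barQLHom_algebraMap 𝕜, t4mC_const]⟩
  | hg D hD =>
    have hD' : D ∣ N'' * q ^ (a + b) := by rwa [t4eLev_eq] at hD
    obtain ⟨d, n, hd, hn, rfl⟩ := t4ecu_dvd_cases N'' q (a + b) hq hD'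
    haveI : NeZero d := t2w_neZero_of_dvd _ hd
    rcases Nat.lt_or_ge a n with hlt | hle
    · -- `n = a + j`, `1 ≤ j ≤ b`
      obtain ⟨j, rfl⟩ : ∃ j, n = a + j := ⟨n - a, by omega⟩
      have hjb : j ≤ b := by omega
      have heq : d * q ^ (a + j) = d * q ^ a * q ^ j := by rw [_root_.pow_add, mul_assoc]
      have aux : ∀ (D' : ℕ) (hD'' : D' ∣ t4eLev N'' q (a + b)), D' = d * q ^ a * q ^ j →
          ∃ s : LaurentSeries 𝕜, barQLHom 𝕜 (t4eLev N'' q (a + b)) s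
            = t4mC 𝕜 (t4eLev N'' q (a + b)) (t4mGam N'' (q ^ a) C)
                (t2wJd 𝕜 (t4eLev N'' q (a + b)) D' hD'') := by
        rintro D' hD'' rfl
        exact ⟨_, (t4ecuC_high 𝕜 N'' q a b hba b₀ C u h z hz j hjb d hd).symm⟩
      exact aux _ hD heq
    · haveI : NeZero (d * q ^ n) := ⟨Nat.mul_ne_zero (NeZero.ne d) (NeZero.ne _)⟩
      have hlow : d * q ^ n ∣ N'' * q ^ a := Nat.mul_dvd_mul hd (pow_dvd_pow q hle)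
      exact ⟨_, (t4ecuC_low 𝕜 N'' q a b C (d * q ^ n) hlow).symm⟩
  | hadd x y hx hy =>
    obtain ⟨x', hx'⟩ := hx
    obtain ⟨y', hy'⟩ := hy
    exact ⟨x' + y', by rw [map_add, map_add, hx', hy']⟩
  | hmul x y hx hy =>
    obtain ⟨x', hx'⟩ := hx
    obtain ⟨y', hy'⟩ := hy
    exact ⟨x' * y', by rw [map_mul, map_mul, hx', hy']⟩
  | hinv x hx =>
    obtain ⟨x', hx'⟩ := hx
    exact ⟨x'⁻¹, by rw [map_inv₀, map_inv₀, hx']⟩

/-- the underlying function of `ι_(a,b)` -/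
noncomputable def t4ecuFun (x : barField 𝕜 (t4eLev N'' q (a + b))) : LaurentSeries 𝕜 :=
  (t4ecu_exists 𝕜 N'' q hq a b hba b₀ C u h z hz x).choose

theorem barQLHom_t4ecuFun (x : barField 𝕜 (t4eLev N'' q (a + b))) :
    barQLHom 𝕜 (t4eLev N'' q (a + b)) (t4ecuFun 𝕜 N'' q hq a b hba b₀ C u h z hz x)
      = t4mC 𝕜 (t4eLev N'' q (a + b)) (t4mGam N'' (q ^ a) C) x :=
  (t4ecu_exists 𝕜 N'' q hq a b hba b₀ C u h z hz x).choose_spec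

theorem t4ecuFun_eq_iff (x : barField 𝕜 (t4eLev N'' q (a + b))) (s : LaurentSeries 𝕜) :
    t4ecuFun 𝕜 N'' q hq a b hba b₀ C u h z hz x = s
      ↔ barQLHom 𝕜 (t4eLev N'' q (a + b)) s
          = t4mC 𝕜 (t4eLev N'' q (a + b)) (t4mGam N'' (q ^ a) C) x := by
  constructor
  · rintro rfl
    exact barQLHom_t4ecuFun 𝕜 N'' q hq a b hba b₀ C u h z hz x
  · intro hs
    apply barQLHom_injective 𝕜 (t4eLev N'' q (a + b))
    rw [barQLHom_t4ecuFun, hs]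

/-- **`ι_(a,b)`** over `𝕜` (with explicit Bezout data) -/
noncomputable def t4ecuHom : barField 𝕜 (t4eLev N'' q (a + b)) →ₐ[𝕜] LaurentSeries 𝕜 where
  toFun := t4ecuFun 𝕜 N'' q hq a b hba b₀ C u h z hz
  map_one' := by rw [t4ecuFun_eq_iff]; simp
  map_mul' x y := by
    rw [t4ecuFun_eq_iff, map_mul, map_mul, barQLHom_t4ecuFun, barQLHom_t4ecuFun]
  map_zero' := by rw [t4ecuFun_eq_iff]; simp
  map_add' x y := by
    rw [t4ecuFun_eq_iff, map_add, map_add, barQLHom_t4ecuFun, barQLHom_t4ecuFun]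
  commutes' c := by
    rw [t4ecuFun_eq_iff, barQLHom_algebraMap 𝕜, t4mC_const]

theorem barQLHom_t4ecuHom (x : barField 𝕜 (t4eLev N'' q (a + b))) :
    barQLHom 𝕜 (t4eLev N'' q (a + b)) (t4ecuHom 𝕜 N'' q hq a b hba b₀ C u h z hz x)
      = t4mC 𝕜 (t4eLev N'' q (a + b)) (t4mGam N'' (q ^ a) C) x :=
  barQLHom_t4ecuFun 𝕜 N'' q hq a b hba b₀ C u h z hz x

theorem t4ecuHom_jd_low (D : ℕ) [NeZero D] (hD : D ∣ N'' * q ^ a) :
    t4ecuHom 𝕜 N'' q hq a b hba b₀ C u h z hz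
        (t2wJd 𝕜 (t4eLev N'' q (a + b)) D (hD.trans (t4ecu_dvd_low N'' q a b)))
      = qExpand 𝕜 D (jqModC 𝕜) :=
  (t4ecuFun_eq_iff 𝕜 N'' q hq a b hba b₀ C u h z hz _ _).mpr (t4ecuC_low 𝕜 N'' q a b C D hD).symm

theorem t4ecuHom_jd_high (j : ℕ) (hjb : j ≤ b) (d : ℕ) [NeZero d] (hd : d ∣ N'') :
    t4ecuHom 𝕜 N'' q hq a b hba b₀ C u h z hz
        (t2wJd 𝕜 (t4eLev N'' q (a + b)) (d * q ^ a * q ^ j) (t4ecu_dvd_high N'' q a b hd hjb))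
      = qExpand 𝕜 (q ^ (a - j)) (t4vSig (z ^ (q ^ (b - j))) (qExpand 𝕜 d (jqModC 𝕜))) :=
  (t4ecuFun_eq_iff 𝕜 N'' q hq a b hba b₀ C u h z hz _ _).mpr
    (t4ecuC_high 𝕜 N'' q a b hba b₀ C u h z hz j hjb d hd).symm

end Hom

end Fermat.Agent.T4
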