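/-
T4E-P2 CUSP (lead), part 5: `t4ecu 𝕜 N'' q hq hqN a b hba hb z hz1 hz2 :
barField 𝕜 (t4eLev N'' q (a + b)) →ₐ[𝕜] LaurentSeries 𝕜`, the embedding `ι_(a,b)` attached to an ARBITRARY
primitive `q^b`-th root of unity `z ∈ 𝕜ˣ` (`z ^ q^b = 1`, `z ^ q^(b-1) ≠ 1`, `1 ≤ b ≤ a`, `q ∤ N''`):
`ι (a_n f) = f(𝔮^{q^n})` (`n ≤ a`), `ι (a_{a+j} f) = (σ_{z_j} f)(𝔮^{q^(a-j)})` (`j ≤ b`, `z_j = z^{q^(b-j)}`);
equivariance under the coefficientwise Galois action of automorphisms fixing `z` (`t4ecu_comm`).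
-/
import Mathlib
import Fermat.Agent.Lib.T4E.Cusp.Deg
import Fermat.Agent.Lib.T4.Inst.MidEx5

set_option autoImplicit false
set_option linter.unusedSectionVars false
set_option linter.style.haveILetI false
set_option linter.unusedVariables false

namespace Fermat.Agent.T4

open Fermat.Agent.S24Lib Fermat.Agent.T1 Fermat.Agent.T1.KMod Fermat.Agent.T2
open UpperHalfPlane Matrix MatrixGroups ModularCurve HahnSeries

attribute [local instance] charZero_k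

section Prim

variable (𝕜 : Type) [Field 𝕜] [IsAlgClosed 𝕜] [Algebra 𝕜 ℂ] [Algebra ℚ 𝕜]
variable (N'' q : ℕ) [NeZero N''] [NeZero q] (hq : q.Prime) (hqN : ¬ q ∣ N'')
variable (a b : ℕ) (hba : b ≤ a) (hb : 1 ≤ b)
variable (z : 𝕜ˣ) (hz1 : z ^ (q ^ b) = 1) (hz2 : z ^ (q ^ (b - 1)) ≠ 1)

include hq hqN hb hz1 hz2 in
/-- Bezout data for the matrix `γ₀` adapted to the root of unity `z` -/
theorem t4ecu_exists_data :
    ∃ b₀ C u : ℤ, (N'' : ℤ) * b₀ * C + ((q ^ b : ℕ) : ℤ) * u = 1 ∧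
      algebraMap 𝕜 ℂ (z : 𝕜)
        = Complex.exp (2 * Real.pi * Complex.I * b₀ / ((q ^ b : ℕ) : ℤ)) := by
  haveI : Fact q.Prime := ⟨hq⟩
  obtain ⟨b', rfl⟩ : ∃ b', b = b' + 1 := ⟨b - 1, by omega⟩
  rw [Nat.add_sub_cancel] at hz2
  have hprim : IsPrimitiveRoot z (q ^ (b' + 1)) := by
    have h1 : orderOf z = q ^ (b' + 1) := orderOf_eq_prime_pow hz2 hz1
    rw [← h1]
    exact IsPrimitiveRoot.orderOf z
  have hprim' : IsPrimitiveRoot (algebraMap 𝕜 ℂ (z : 𝕜)) (q ^ (b' + 1)) :=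
    (IsPrimitiveRoot.coe_units_iff.mpr hprim).map_of_injective (algebraMap 𝕜 ℂ).injective
  obtain ⟨i, -, hi, hexp⟩ :=
    (Complex.isPrimitiveRoot_iff _ (q ^ (b' + 1)) (pow_ne_zero _ hq.ne_zero)).mp hprim'
  have hcop : Nat.Coprime (N'' * i) (q ^ (b' + 1)) := by
    apply Nat.Coprime.mul_left _ hi
    exact (((Nat.Prime.coprime_iff_not_dvd hq).mpr hqN).symm).pow_right _
  have hb := Int.gcd_eq_gcd_ab ((N'' * i : ℕ) : ℤ) ((q ^ (b' + 1) : ℕ) : ℤ)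
  rw [Int.gcd_natCast_natCast, hcop] at hb
  refine ⟨(i : ℤ), Int.gcdA ((N'' * i : ℕ) : ℤ) ((q ^ (b' + 1) : ℕ) : ℤ),
    Int.gcdB ((N'' * i : ℕ) : ℤ) ((q ^ (b' + 1) : ℕ) : ℤ), ?_, ?_⟩
  · push_cast at hb ⊢
    linarith
  · rw [← hexp]
    congr 1
    push_cast
    ring

/-- **`ι_(a,b)` over `𝕜`** attached to the primitive `q^b`-th root of unity `z` -/
noncomputable def t4ecu : barField 𝕜 (t4eLev N'' q (a + b)) →ₐ[𝕜] LaurentSeries 𝕜 :=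
  t4ecuHom 𝕜 N'' q hq a b hba
    (t4ecu_exists_data 𝕜 N'' q hq hqN b hb z hz1 hz2).choose
    (t4ecu_exists_data 𝕜 N'' q hq hqN b hb z hz1 hz2).choose_spec.choose
    (t4ecu_exists_data 𝕜 N'' q hq hqN b hb z hz1 hz2).choose_spec.choose_spec.choose
    (t4ecu_exists_data 𝕜 N'' q hq hqN b hb z hz1 hz2).choose_spec.choose_spec.choose_spec.1 z
    (t4ecu_exists_data 𝕜 N'' q hq hqN b hb z hz1 hz2).choose_spec.choose_spec.choose_spec.2

/-- `ι (a_n f) = f(𝔮^{q^n})` for `n ≤ a` -/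
theorem t4ecu_low (n : ℕ) (hn : n ≤ a) (f : barField 𝕜 N'') :
    t4ecu 𝕜 N'' q hq hqN a b hba hb z hz1 hz2 (t4eDeg 𝕜 N'' q (a + b) n f)
      = qExpand 𝕜 (q ^ n) (f : LaurentSeries 𝕜) :=
  t4ecuHom_low 𝕜 N'' q hq a b hba _ _ _ _ z _ n hn f

/-- `ι (a_{a+j} f) = (σ_{z_j} f)(𝔮^{q^(a-j)})` for `j ≤ b`, `z_j = z^{q^(b-j)}` -/
theorem t4ecu_high (j : ℕ) (hjb : j ≤ b) (f : barField 𝕜 N'') :
    t4ecu 𝕜 N'' q hq hqN a b hba hb z hz1 hz2 (t4eDeg 𝕜 N'' q (a + b) (a + j) f)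
      = qExpand 𝕜 (q ^ (a - j)) (t4vSig (z ^ (q ^ (b - j))) (f : LaurentSeries 𝕜)) :=
  t4ecuHom_high 𝕜 N'' q hq a b hba _ _ _ _ z _ j hjb f

/-- the degeneracy maps commute with the coefficientwise Galois action -/
theorem t4ecu_arith_deg (i n : ℕ) (hn : n ≤ i) (σ : 𝕜 ≃ₐ[ℚ] 𝕜) (f : barField 𝕜 N'') :
    arithmeticRingAut (modularFunctionFieldFull (t4eLev N'' q i)) σ (t4eDeg 𝕜 N'' q i n f)
      = t4eDeg 𝕜 N'' q i n (arithmeticRingAut (modularFunctionFieldFull N'') σ f) := by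
  apply Subtype.ext
  rw [coe_arithmeticRingAut_apply, coe_t4eDeg 𝕜 N'' q i n hn, coe_t4eDeg 𝕜 N'' q i n hn,
    coe_arithmeticRingAut_apply, coeffMap_qExpand]

/-- **Galois equivariance**: for `σ` fixing `z`, `σ(ι x) = ι(σ x)` coefficientwise -/
theorem t4ecu_comm (σ : 𝕜 ≃ₐ[ℚ] 𝕜) (hσ : σ (z : 𝕜) = (z : 𝕜))
    (x : barField 𝕜 (t4eLev N'' q (a + b))) :
    coeffMap (σ : 𝕜 →+* 𝕜) (t4ecu 𝕜 N'' q hq hqN a b hba hb z hz1 hz2 x)
      = t4ecu 𝕜 N'' q hq hqN a b hba hb z hz1 hz2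
          (arithmeticRingAut (modularFunctionFieldFull (t4eLev N'' q (a + b))) σ x) := by
  have key : (coeffMap (σ : 𝕜 →+* 𝕜)).comp
        (t4ecu 𝕜 N'' q hq hqN a b hba hb z hz1 hz2 :
          barField 𝕜 (t4eLev N'' q (a + b)) →+* LaurentSeries 𝕜)
      = (t4ecu 𝕜 N'' q hq hqN a b hba hb z hz1 hz2 :
          barField 𝕜 (t4eLev N'' q (a + b)) →+* LaurentSeries 𝕜).comp
        ((arithmeticRingAut (modularFunctionFieldFull (t4eLev N'' q (a + b))) σ :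
            barField 𝕜 (t4eLev N'' q (a + b)) ≃+* barField 𝕜 (t4eLev N'' q (a + b))) :
          barField 𝕜 (t4eLev N'' q (a + b)) →+* barField 𝕜 (t4eLev N'' q (a + b))) := by
    apply t4ecu_ext 𝕜 N'' q hq (a + b)
    · intro c
      show coeffMap (σ : 𝕜 →+* 𝕜) (t4ecu 𝕜 N'' q hq hqN a b hba hb z hz1 hz2 (algebraMap 𝕜 _ c))
        = t4ecu 𝕜 N'' q hq hqN a b hba hb z hz1 hz2 (arithmeticRingAut _ σ (algebraMap 𝕜 _ c))
      rw [arithmeticRingAut_algebraMap, AlgHom.commutes, AlgHom.commutes]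
      exact coeffMap_algebraMap (σ : 𝕜 →+* 𝕜) c
    · intro n hn f
      show coeffMap (σ : 𝕜 →+* 𝕜) (t4ecu 𝕜 N'' q hq hqN a b hba hb z hz1 hz2 _)
        = t4ecu 𝕜 N'' q hq hqN a b hba hb z hz1 hz2 (arithmeticRingAut _ σ _)
      rw [t4ecu_arith_deg 𝕜 N'' q (a + b) n hn]
      rcases Nat.lt_or_ge a n with hlt | hle
      · obtain ⟨j, rfl⟩ : ∃ j, n = a + j := ⟨n - a, by omega⟩
        have hjb : j ≤ b := by omega
        rw [t4ecu_high 𝕜 N'' q hq hqN a b hba hb z hz1 hz2 j hjb,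
          t4ecu_high 𝕜 N'' q hq hqN a b hba hb z hz1 hz2 j hjb, coe_arithmeticRingAut_apply,
          coeffMap_qExpand, coeffMap_t4vSig]
        congr 3
        apply Units.ext
        rw [Units.coe_map, Units.val_pow_eq_pow_val]
        show σ ((z : 𝕜) ^ (q ^ (b - j))) = _
        rw [map_pow, hσ]
      · rw [t4ecu_low 𝕜 N'' q hq hqN a b hba hb z hz1 hz2 n hle,
          t4ecu_low 𝕜 N'' q hq hqN a b hba hb z hz1 hz2 n hle, coe_arithmeticRingAut_apply,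
          coeffMap_qExpand]
  exact RingHom.congr_fun key x

end Prim

end Fermat.Agent.T4
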