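/-
T4E-P2 CUSP (lead), part 6: restriction of `ι_(a,b)` to the finite levels.  For inertia levels `H₂ ≤ H₁ ≤ 𝔓.I`
(`L_i = tbFix 𝔓 H_i`, `L₁ ⊆ L₂`), `q = 𝔓.p ∤ N''`, `1 ≤ b ≤ a` and a primitive `q^b`-th root of unity `ζ ∈ L₂`:
`t4ecuLev … : F_{H₁} = tbLevF 𝔓 (t4eLev N'' q (a + b)) H₁ →+* LaurentSeries L₂`, and **the instance
`t4eCuspFix … : T4eCusp L₁ L₂ N'' q a b ζ`** of helper9's interface structure (Tower/Defs.lean).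
-/
import Mathlib
import Fermat.Agent.Lib.T4E.Cusp.Prim
import Fermat.Agent.Lib.T4.Inst.MidEx6

set_option autoImplicit false
set_option linter.unusedSectionVars false
set_option linter.style.haveILetI false
set_option linter.unusedVariables false
set_option synthInstance.maxHeartbeats 400000

namespace Fermat.Agent.T4

open Fermat.Agent.S24Lib Fermat.Agent.T1 Fermat.Agent.T1.KMod Fermat.Agent.T2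
open ModularCurve HahnSeries Fermat.Agent.TW Fermat.Agent.S05Lib

local notation "Qb" => AlgebraicClosure ℚ
local notation "GQ" => (AlgebraicClosure ℚ ≃ₐ[ℚ] AlgebraicClosure ℚ)

section PhiDegen

variable (𝔓 : FFPlace) (H : Subgroup 𝔓.I) (N'' q : ℕ) [NeZero N''] [NeZero q]

theorem t4ecu_tbPhiF_deg (i n : ℕ) (hn : n ≤ i) (x : tbLevF 𝔓 N'' H) :
    tbPhiF 𝔓 (t4eLev N'' q i) H (t4eDeg ↥(tbFix 𝔓 H) N'' q i n x)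
      = t4eDeg Qb N'' q i n (tbPhiF 𝔓 N'' H x) := by
  apply Subtype.ext
  rw [coe_tbPhiF, coe_t4eDeg _ N'' q i n hn, coe_t4eDeg _ N'' q i n hn, coe_tbPhiF, tbPhi,
    coeffMap_qExpand]

end PhiDegen

section Lev

variable (𝔓 : FFPlace) {H₁ H₂ : Subgroup 𝔓.I} (hH : H₂ ≤ H₁) (N'' : ℕ) [NeZero N'']
  (hN'' : ¬ 𝔓.p ∣ N'') (a b : ℕ) (hba : b ≤ a) (hb : 1 ≤ b)
variable (ζ : (↥(tbFix 𝔓 H₂))ˣ) (hζ1 : ζ ^ (𝔓.p ^ b) = 1) (hζ2 : ζ ^ (𝔓.p ^ (b - 1)) ≠ 1)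

theorem t4ecuZ_pow (n : ℕ) : t4mZ 𝔓 ζ ^ n = t4mZ 𝔓 (ζ ^ n) := by
  rw [t4mZ, t4mZ, map_pow]

theorem t4ecuZ_one : t4mZ 𝔓 (1 : (↥(tbFix 𝔓 H₂))ˣ) = 1 := by
  rw [t4mZ, map_one]

theorem t4ecuZ_injective : Function.Injective (t4mZ 𝔓 (H₂ := H₂)) := by
  intro x y hxy
  apply Units.ext
  apply Subtype.ext
  have h1 := congrArg (fun u : Qbˣ => (u : Qb)) hxy
  simpa [coe_t4mZ] using h1

include hζ1 in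
theorem t4ecuZ_pow_eq : t4mZ 𝔓 ζ ^ (𝔓.p ^ b) = 1 := by
  rw [t4ecuZ_pow, hζ1, t4ecuZ_one]

include hζ2 in
theorem t4ecuZ_pow_ne : t4mZ 𝔓 ζ ^ (𝔓.p ^ (b - 1)) ≠ 1 := by
  rw [t4ecuZ_pow]
  intro h
  apply hζ2
  apply t4ecuZ_injective 𝔓
  rw [h, t4ecuZ_one]

/-- `ι_(a,b)` over `ℚ̄` for the root of unity `ζ` -/
noncomputable def t4ecuQb : barField Qb (t4eLev N'' 𝔓.p (a + b)) →ₐ[Qb] LaurentSeries Qb :=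
  t4ecu Qb N'' 𝔓.p 𝔓.hp hN'' a b hba hb (t4mZ 𝔓 ζ) (t4ecuZ_pow_eq 𝔓 b ζ hζ1)
    (t4ecuZ_pow_ne 𝔓 b ζ hζ2)

include hH in
theorem t4ecu_exists_lev (f : tbLevF 𝔓 (t4eLev N'' 𝔓.p (a + b)) H₁) :
    ∃ s : LaurentSeries ↥(tbFix 𝔓 H₂), tbPhi 𝔓 H₂ s
      = t4ecuQb 𝔓 N'' hN'' a b hba hb ζ hζ1 hζ2 (tbPhiF 𝔓 (t4eLev N'' 𝔓.p (a + b)) H₁ f) := by
  apply tdd_mem_range_coeffMap
  intro n
  have hmem : (t4ecuQb 𝔓 N'' hN'' a b hba hb ζ hζ1 hζ2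
      (tbPhiF 𝔓 (t4eLev N'' 𝔓.p (a + b)) H₁ f)).coeff n ∈ tbFix 𝔓 H₂ := by
    rw [mem_tbFix]
    intro σ hσ
    have h1 := t4ecu_comm Qb N'' 𝔓.p 𝔓.hp hN'' a b hba hb (t4mZ 𝔓 ζ) (t4ecuZ_pow_eq 𝔓 b ζ hζ1)
      (t4ecuZ_pow_ne 𝔓 b ζ hζ2) ((σ : 𝔓.I) : GQ) (t4mZ_fixed 𝔓 ζ σ hσ)
      (tbPhiF 𝔓 (t4eLev N'' 𝔓.p (a + b)) H₁ f)
    rw [t2w_arith_tbPhiF 𝔓 (t4eLev N'' 𝔓.p (a + b)) H₁ σ (hH hσ)] at h1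
    have h2 := congrArg (fun x : LaurentSeries Qb => x.coeff n) h1
    simp only [coeffMap_coeff] at h2
    exact h2
  exact ⟨⟨_, hmem⟩, rfl⟩

/-- the underlying function of `ι_(a,b)` at the levels `H₂ ≤ H₁` -/
noncomputable def t4ecuLevFun (f : tbLevF 𝔓 (t4eLev N'' 𝔓.p (a + b)) H₁) :
    LaurentSeries ↥(tbFix 𝔓 H₂) :=
  (t4ecu_exists_lev 𝔓 hH N'' hN'' a b hba hb ζ hζ1 hζ2 f).choose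

theorem tbPhi_t4ecuLevFun (f : tbLevF 𝔓 (t4eLev N'' 𝔓.p (a + b)) H₁) :
    tbPhi 𝔓 H₂ (t4ecuLevFun 𝔓 hH N'' hN'' a b hba hb ζ hζ1 hζ2 f)
      = t4ecuQb 𝔓 N'' hN'' a b hba hb ζ hζ1 hζ2 (tbPhiF 𝔓 (t4eLev N'' 𝔓.p (a + b)) H₁ f) :=
  (t4ecu_exists_lev 𝔓 hH N'' hN'' a b hba hb ζ hζ1 hζ2 f).choose_spec

theorem t4ecuLevFun_eq_iff (f : tbLevF 𝔓 (t4eLev N'' 𝔓.p (a + b)) H₁)
    (s : LaurentSeries ↥(tbFix 𝔓 H₂)) :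
    t4ecuLevFun 𝔓 hH N'' hN'' a b hba hb ζ hζ1 hζ2 f = s
      ↔ tbPhi 𝔓 H₂ s
        = t4ecuQb 𝔓 N'' hN'' a b hba hb ζ hζ1 hζ2 (tbPhiF 𝔓 (t4eLev N'' 𝔓.p (a + b)) H₁ f) := by
  constructor
  · rintro rfl
    exact tbPhi_t4ecuLevFun 𝔓 hH N'' hN'' a b hba hb ζ hζ1 hζ2 f
  · intro hs
    apply tbPhi_injective 𝔓 H₂
    rw [tbPhi_t4ecuLevFun, hs]

/-- **`ι_(a,b)` at the levels `H₂ ≤ H₁`** -/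
noncomputable def t4ecuLev :
    tbLevF 𝔓 (t4eLev N'' 𝔓.p (a + b)) H₁ →+* LaurentSeries ↥(tbFix 𝔓 H₂) where
  toFun := t4ecuLevFun 𝔓 hH N'' hN'' a b hba hb ζ hζ1 hζ2
  map_one' := by rw [t4ecuLevFun_eq_iff]; simp
  map_mul' x y := by
    rw [t4ecuLevFun_eq_iff, map_mul, map_mul, map_mul, tbPhi_t4ecuLevFun, tbPhi_t4ecuLevFun]
  map_zero' := by rw [t4ecuLevFun_eq_iff]; simp
  map_add' x y := by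
    rw [t4ecuLevFun_eq_iff, map_add, map_add, map_add, tbPhi_t4ecuLevFun, tbPhi_t4ecuLevFun]

/-- compatibility with `ι_(a,b)` over `ℚ̄` -/
theorem tbPhi_t4ecuLev (f : tbLevF 𝔓 (t4eLev N'' 𝔓.p (a + b)) H₁) :
    tbPhi 𝔓 H₂ (t4ecuLev 𝔓 hH N'' hN'' a b hba hb ζ hζ1 hζ2 f)
      = t4ecuQb 𝔓 N'' hN'' a b hba hb ζ hζ1 hζ2 (tbPhiF 𝔓 (t4eLev N'' 𝔓.p (a + b)) H₁ f) :=
  tbPhi_t4ecuLevFun 𝔓 hH N'' hN'' a b hba hb ζ hζ1 hζ2 f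

/-- `ι (a_n f) = f(𝔮^{q^n})` for `n ≤ a` -/
theorem t4ecuLev_low (n : ℕ) (hn : n ≤ a) (f : ↥(TaF ↥(tbFix 𝔓 H₁) N'')) :
    letI := t4cyAlgebra 𝔓 hH
    t4ecuLev 𝔓 hH N'' hN'' a b hba hb ζ hζ1 hζ2 (t4eDeg ↥(tbFix 𝔓 H₁) N'' 𝔓.p (a + b) n f)
      = coeffMap (algebraMap ↥(tbFix 𝔓 H₁) ↥(tbFix 𝔓 H₂))
          (qExpand ↥(tbFix 𝔓 H₁) (𝔓.p ^ n) (f : LaurentSeries ↥(tbFix 𝔓 H₁))) := by
  letI := t4cyAlgebra 𝔓 hH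
  apply tbPhi_injective 𝔓 H₂
  rw [tbPhi_t4ecuLev, t4ecu_tbPhiF_deg 𝔓 H₁ N'' 𝔓.p (a + b) n (hn.trans (Nat.le_add_right a b)),
    t4ecuQb, t4ecu_low _ _ _ _ _ _ _ _ _ _ _ _ n hn, coe_tbPhiF, t4m_tbPhi_incl, tbPhi,
    coeffMap_qExpand]

/-- `ι (a_{a+j} f) = (σ_{ζ_j} f)(𝔮^{q^(a-j)})` for `j ≤ b`, `ζ_j = ζ^{q^(b-j)}` -/
theorem t4ecuLev_high (j : ℕ) (hjb : j ≤ b) (f : ↥(TaF ↥(tbFix 𝔓 H₁) N'')) :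
    letI := t4cyAlgebra 𝔓 hH
    t4ecuLev 𝔓 hH N'' hN'' a b hba hb ζ hζ1 hζ2
        (t4eDeg ↥(tbFix 𝔓 H₁) N'' 𝔓.p (a + b) (a + j) f)
      = qExpand ↥(tbFix 𝔓 H₂) (𝔓.p ^ (a - j)) (t4vSig (ζ ^ (𝔓.p ^ (b - j)))
          (coeffMap (algebraMap ↥(tbFix 𝔓 H₁) ↥(tbFix 𝔓 H₂))
            (f : LaurentSeries ↥(tbFix 𝔓 H₁)))) := by
  letI := t4cyAlgebra 𝔓 hH
  apply tbPhi_injective 𝔓 H₂
  rw [tbPhi_t4ecuLev, t4ecu_tbPhiF_deg 𝔓 H₁ N'' 𝔓.p (a + b) (a + j) (Nat.add_le_add_left hjb a),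
    t4ecuQb, t4ecu_high _ _ _ _ _ _ _ _ _ _ _ _ j hjb, coe_tbPhiF]
  conv_rhs => rw [tbPhi, coeffMap_qExpand, coeffMap_t4vSig]
  rw [← t4m_tbPhi_incl 𝔓 hH, t4ecuZ_pow]
  rfl

/-- **the cusp embedding `ι_(a,b)` at the levels `L_{H₁} ⊆ L_{H₂}`** (instance of helper9's `T4eCusp`) -/
noncomputable def t4eCuspFix :
    letI := t4cyAlgebra 𝔓 hH
    T4eCusp ↥(tbFix 𝔓 H₁) ↥(tbFix 𝔓 H₂) N'' 𝔓.p a b ζ :=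
  letI := t4cyAlgebra 𝔓 hH
  { ι := t4ecuLev 𝔓 hH N'' hN'' a b hba hb ζ hζ1 hζ2
    ι_low := fun k hk f => t4ecuLev_low 𝔓 hH N'' hN'' a b hba hb ζ hζ1 hζ2 k hk f
    ι_high := fun j _ hjb f => t4ecuLev_high 𝔓 hH N'' hN'' a b hba hb ζ hζ1 hζ2 j hjb f }

end Lev

end Fermat.Agent.T4
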